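import Fermat.Agent.S30.PseudoChar

/-!
# S36, route T: the interface

`StmtH8` : the abstract theorem **(h8)** of route T (NOTES/S36-routeT.md).  For a
`G_ℚ × Hecke`-module `J` carrying the faithful `p`-adic Eichler–Shimura package, the trace
function `t` of S30 (`S30.exists_traceFun`), a unit commutator trace (absolute irreducibility of
the residual representation), a `G_ℚ`-stable subgroup `New ≤ J` whose `p`-power torsion inertia
invariants at a place `A ∣ q` (`q ≠ p`) are killed by a constant `c ≠ 0`, and a Hecke polynomial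
`Θ` in the variables outside `S` with `Θ · J[p^∞] ⊆ New` and `χ(Θ) ≠ 0`:

  some `σ` in the inertia group of `A` has `t σ ≠ 2`.

Proved in `Fermat/Agent/S36/T/H8.lean` (`Fermat.Agent.S36.stmtH8`).
-/

set_option autoImplicit false

namespace Fermat.Agent.S36

open ModularCurve Fermat.Agent.ES Fermat.Agent.S31 Fermat.Agent.S30

/-- **(h8)**, abstract form (route T). -/
def StmtH8 : Prop :=
  ∀ (p N : ℕ) [Fact p.Prime] [NeZero N]
    (J : Type) [AddCommGroup J] [Module HeckeAlg J] [DistribMulAction GQ J]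
    (S : Finset ℕ)
    (𝒪' : Type) [CommRing 𝒪'] [IsDomain 𝒪'] [IsDiscreteValuationRing 𝒪'] [CharZero 𝒪']
    (χ : CuspForm.heckeAlgebra N 2 (↑S : Set ℕ) →+* 𝒪'),
    (p : 𝒪') ∈ IsLocalRing.maximalIdeal 𝒪' →
    Cheb.WeakChebotarev → ESDataInf N p J → ESFaith N p J →
    (∀ r : ℕ, r.Prime → r ∉ S → ¬ r ∣ N) →
    (∀ r : ℕ, r.Prime → r ∉ S → ¬ r ∣ N * p) →
    ∀ t : GQ → 𝒪',
    (∀ (g : GQ) (k n : ℕ) (h : HeckeAlg), Good p J S χ k n →
      h ∈ MvPolynomial.supported ℤ (outsideVars (↑S : Set ℕ)) → Approx p J n g h →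
        t g - chiHom S χ h ∈ IsLocalRing.maximalIdeal 𝒪' ^ k) →
    (∃ g₁ g₂ g₃ : GQ, t (g₁ * g₂ * g₃) - t (g₂ * g₁ * g₃) ∉ IsLocalRing.maximalIdeal 𝒪') →
    ∀ q : ℕ, q.Prime → q ≠ p →
    ∀ A : ValuationSubring (AlgebraicClosure ℚ), A.LiesOverPrime q →
    ∀ New : AddSubgroup J, (∀ (σ : GQ), ∀ x ∈ New, σ • x ∈ New) →
    (∃ c : ℕ, c ≠ 0 ∧ ∀ x : J, IsPPowerTorsion p x → x ∈ New →
      (∀ σ ∈ A.inertiaSubgroupIn ℚ, σ • x = x) → c • x = 0) →
    ∀ Θ ∈ MvPolynomial.supported ℤ (outsideVars (↑S : Set ℕ)),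
    (∀ x : J, IsPPowerTorsion p x → Θ • x ∈ New) →
    chiHom S χ Θ ≠ 0 →
    ∃ σ ∈ A.inertiaSubgroupIn ℚ, t σ ≠ 2

end Fermat.Agent.S36
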