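import Fermat.Agent.S36.T.DetTrick

/-!
# S36, route T, pieces AV + DT assembled: the element of `ℤ[I]` (Mathlib only)

`X` a finite abelian group with `pⁿ X = 0`, `act : G →* End X`, `I ≤ G` a subgroup with a
"tame character" `ψ : I →* C` (`C` commutative, `ψ(I)` generated by `ψ t₀`, the elements of
`ker ψ` act on `X` with `q`-power order), `θ ∈ End X` commuting with `G`.
If every subgroup of `θ X` fixed by `I` has order dividing `B`, and `|X[p]| ≤ s₁`, then there is
`c ∈ ℤ[G]`, a combination of elements of `I`, which kills `θ X` and has augmentation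
`q ^ a * B ^ s`, `s ≤ s₁`.  (`s36t_exists_killer`)
-/

set_option autoImplicit false

open Polynomial

namespace Fermat.Agent.S36

section Restrict

variable {M : Type*} [AddCommGroup M]

/-- `aeval` of a restricted endomorphism is the restriction of `aeval` -/
theorem s36t_aeval_restrict (t : Module.End ℤ M) (M₁ : Submodule ℤ M)
    (ht : ∀ x ∈ M₁, t x ∈ M₁) (f : ℤ[X]) (x : M₁) :
    ((aeval (t.restrict ht) f x : M₁) : M) = aeval t f (x : M) := by
  induction f using Polynomial.induction_on' generalizing x with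
  | add f g hf hg =>
    rw [map_add, map_add, LinearMap.add_apply, LinearMap.add_apply, Submodule.coe_add, hf, hg]
  | monomial n a =>
    rw [aeval_monomial, aeval_monomial, Module.End.mul_apply, Module.End.mul_apply,
      Module.algebraMap_end_apply, Module.algebraMap_end_apply, Submodule.coe_smul]
    congr 1
    induction n generalizing x with
    | zero => rw [pow_zero, pow_zero, Module.End.one_apply, Module.End.one_apply]
    | succ n ih =>
      rw [pow_succ, pow_succ, Module.End.mul_apply, Module.End.mul_apply, ih]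
      rfl

end Restrict

section Sum

variable {G : Type*} {A : Type*} [AddCommMonoid A]

/-- evaluation of a double sum of single elements -/
theorem s36t_sum_double {κ₁ κ₂ : Type*} (s₁ : Finset κ₁) (s₂ : Finset κ₂) (a : κ₁ → κ₂ → G)
    (b : κ₁ → κ₂ → ℤ) (h : G → ℤ → A) (h0 : ∀ g, h g 0 = 0)
    (hadd : ∀ g z z', h g (z + z') = h g z + h g z') :
    (∑ j ∈ s₁, ∑ w ∈ s₂, Finsupp.single (a j w) (b j w)).sum h =
      ∑ j ∈ s₁, ∑ w ∈ s₂, h (a j w) (b j w) := by
  rw [← Finsupp.sum_finsetSum_index h0 hadd]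
  refine Finset.sum_congr rfl fun j _ => ?_
  rw [← Finsupp.sum_finsetSum_index h0 hadd]
  refine Finset.sum_congr rfl fun w _ => ?_
  rw [Finsupp.sum_single_index (h0 _)]

end Sum

section Main

variable {X : Type*} [AddCommGroup X] [Finite X] {G : Type*} [Group G]

/-- **(AV) + (DT)**: the element of `ℤ[I]` which kills `θ X`. -/
theorem s36t_exists_killer (act : G →* Module.End ℤ X) (I : Subgroup G)
    {C : Type*} [CommGroup C] (ψ : ↥I →* C) (t₀ : ↥I)
    (hgen : ∀ x : ↥I, ∃ n : ℕ, ψ x = ψ t₀ ^ n)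
    (q : ℕ) [Fact q.Prime]
    (hker : ∀ y : ↥I, ψ y = 1 → ∃ m : ℕ, act ((y : G) ^ (q ^ m)) = 1)
    (θ : Module.End ℤ X) (hθ : ∀ g, θ * act g = act g * θ)
    (p n : ℕ) (hX : ∀ x : X, p ^ n • x = 0)
    (B s₁ : ℕ)
    (hB : ∀ H : AddSubgroup X,
      (∀ x ∈ H, x ∈ LinearMap.range θ ∧ ∀ g : ↥I, act (g : G) x = x) → Nat.card H ∣ B)
    (hs : ∀ H : AddSubgroup X, (∀ x ∈ H, p • x = 0) → Nat.card H ≤ s₁) :
    ∃ (c : G →₀ ℤ) (a s : ℕ), s ≤ s₁ ∧
      (c.sum fun g z => z • act g) * θ = 0 ∧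
      ∀ (R : Type) [CommRing R] (τ : G → R) (r : R), (∀ g ∈ I, τ g = r) →
        (c.sum fun g z => z • τ g) = ((q ^ a * B ^ s : ℕ) : ℤ) • r := by
  classical
  haveI : Finite (Module.End ℤ X) := DFunLike.finite _
  set K : Subgroup ↥I := ψ.ker with hKdef
  set actI : ↥I →* Module.End ℤ X := act.comp I.subtype with hactI
  set actK : ↥K →* (Module.End ℤ X)ˣ := (actI.comp K.subtype).toHomUnits with hactK
  have hactK_coe : ∀ k : ↥K, ((actK k : (Module.End ℤ X)ˣ) : Module.End ℤ X) =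
      act (((k : ↥I) : G)) := fun k => rfl
  have hmemK : ∀ x : ↥I, x ∈ K ↔ ψ x = 1 := fun x => MonoidHom.mem_ker
  set W : Subgroup (Module.End ℤ X)ˣ := actK.range with hW
  haveI : Fintype W := Fintype.ofFinite W
  set e : Module.End ℤ X := ∑ w : W, ((w : (Module.End ℤ X)ˣ) : Module.End ℤ X) with he
  -- `k e = e`
  have hke : ∀ k : ↥K, act (((k : ↥I) : G)) * e = e := by
    intro k
    have hk : actK k ∈ W := ⟨k, rfl⟩
    rw [he, Finset.mul_sum]
    refine Fintype.sum_equiv (Equiv.mulLeft (⟨actK k, hk⟩ : W)) _ _ (fun w => ?_)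
    rw [← hactK_coe k]
    rfl
  -- `θ` commutes with `e`
  have hθe : θ * e = e * θ := by
    rw [he, Finset.mul_sum, Finset.sum_mul]
    refine Finset.sum_congr rfl fun w _ => ?_
    obtain ⟨k, hk⟩ := w.2
    rw [← hk, hactK_coe k]
    exact hθ _
  -- the `K`-invariants of `θ X`
  let M₁ : Submodule ℤ X :=
    { carrier := {x | x ∈ LinearMap.range θ ∧ ∀ k : ↥K, act (((k : ↥I) : G)) x = x}
      zero_mem' := ⟨zero_mem _, fun k => map_zero _⟩
      add_mem' := by
        rintro x y ⟨hx1, hx2⟩ ⟨hy1, hy2⟩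
        exact ⟨add_mem hx1 hy1, fun k => by rw [map_add, hx2 k, hy2 k]⟩
      smul_mem' := by
        rintro z x ⟨hx1, hx2⟩
        exact ⟨Submodule.smul_mem _ _ hx1, fun k => by rw [map_smul, hx2 k]⟩ }
  have hM₁ : ∀ x, x ∈ M₁ ↔ x ∈ LinearMap.range θ ∧ ∀ k : ↥K, act (((k : ↥I) : G)) x = x :=
    fun x => Iff.rfl
  have he_mem : ∀ x, e (θ x) ∈ M₁ := by
    intro x
    rw [hM₁]
    refine ⟨⟨e x, ?_⟩, fun k => ?_⟩
    · rw [← Module.End.mul_apply, hθe, Module.End.mul_apply]
    · rw [← Module.End.mul_apply, hke k]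
  have ht₀ : ∀ x ∈ M₁, act ((t₀ : ↥I) : G) x ∈ M₁ := by
    intro x hx
    rw [hM₁] at hx ⊢
    obtain ⟨⟨y, rfl⟩, hx2⟩ := hx
    refine ⟨⟨act ((t₀ : ↥I) : G) y, ?_⟩, fun k => ?_⟩
    · rw [← Module.End.mul_apply, hθ, Module.End.mul_apply]
    · -- `k t₀ = t₀ (t₀⁻¹ k t₀)`
      have hn : t₀⁻¹ * (k : ↥I) * t₀ ∈ K := by
        rw [hmemK, map_mul, map_mul, map_inv]
        have hk1 : ψ (k : ↥I) = 1 := (hmemK _).mp k.2
        rw [hk1, mul_one, inv_mul_cancel]
      have h1 := hx2 ⟨t₀⁻¹ * (k : ↥I) * t₀, hn⟩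
      have e1 : ((k : ↥I) : G) * ((t₀ : ↥I) : G) =
          ((t₀ : ↥I) : G) * (((t₀⁻¹ * (k : ↥I) * t₀ : ↥I)) : G) := by
        push_cast
        group
      rw [← Module.End.mul_apply, ← map_mul, e1, map_mul, Module.End.mul_apply]
      exact congrArg _ h1
  set u : Module.End ℤ ↥M₁ := (act ((t₀ : ↥I) : G)).restrict ht₀ with hu
  have hu_coe : ∀ x : ↥M₁, ((u x : ↥M₁) : X) = act ((t₀ : ↥I) : G) (x : X) := fun x => rfl
  -- the fixed points of `t₀` on `M₁` are fixed by `I`
  have hpow : ∀ (x : X), act ((t₀ : ↥I) : G) x = x → ∀ j : ℕ, act (((t₀ : ↥I) : G) ^ j) x = x := by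
    intro x hx j
    induction j with
    | zero => rw [pow_zero, map_one, Module.End.one_apply]
    | succ j ih => rw [pow_succ, map_mul, Module.End.mul_apply, hx, ih]
  have hinv : ∀ x : ↥M₁, u x = x → ∀ g : ↥I, act (g : G) (x : X) = x := by
    intro x hx g
    have hx' : act ((t₀ : ↥I) : G) (x : X) = x := by
      rw [← hu_coe, hx]
    obtain ⟨j, hj⟩ := hgen g
    have hk : g * (t₀ ^ j)⁻¹ ∈ K := by
      rw [hmemK, map_mul, map_inv, map_pow, hj, mul_inv_cancel]
    have h1 := ((hM₁ _).mp x.2).2 ⟨g * (t₀ ^ j)⁻¹, hk⟩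
    have e1 : (g : G) = (((g * (t₀ ^ j)⁻¹ : ↥I)) : G) * ((t₀ : ↥I) : G) ^ j := by
      push_cast
      group
    rw [e1, map_mul, Module.End.mul_apply, hpow _ hx' j]
    exact h1
  -- `B • M₁ ⊆ (u - 1) M₁`
  set d : ↥M₁ →+ ↥M₁ := (u - 1).toAddMonoidHom with hd
  have hdker : Nat.card d.ker ∣ B := by
    have h1 := hB ((d.ker).map M₁.subtype.toAddMonoidHom) (by
      rintro _ ⟨x, hx, rfl⟩
      have hx0 : u x - x = 0 := hx
      have hx1 : u x = x := sub_eq_zero.mp hx0
      exact ⟨((hM₁ _).mp x.2).1, hinv x hx1⟩)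
    rwa [AddSubgroup.card_map_of_injective (Subtype.coe_injective)] at h1
  have hBM : ∀ x : ↥M₁, ∃ y : ↥M₁, B • x = u y - y := by
    intro x
    obtain ⟨y, hy⟩ := s36t_smul_mem_range d B hdker x
    exact ⟨y, hy.symm⟩
  -- generators
  set pm : ↥M₁ →+ ↥M₁ := nsmulAddMonoidHom p with hpm
  let ι := ↥M₁ ⧸ pm.range
  haveI : Fintype ι := Fintype.ofFinite ι
  let m : ι → ↥M₁ := fun i => Quotient.out i
  have hm : Submodule.span ℤ (Set.range m) = ⊤ := by
    have h1 : AddSubgroup.closure (Set.range m) = ⊤ := by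
      apply s36t_closure_eq_top p n (fun x => Subtype.ext (by
        rw [Submodule.coe_smul_of_tower, hX]; rfl)) (Set.range m)
      intro x
      refine ⟨m (QuotientAddGroup.mk x), ⟨_, rfl⟩, ?_⟩
      have h2 : (QuotientAddGroup.mk (m (QuotientAddGroup.mk x)) : ι) = QuotientAddGroup.mk x :=
        Quotient.out_eq _
      rw [QuotientAddGroup.eq] at h2
      obtain ⟨z, hz⟩ := h2
      refine ⟨z, ?_⟩
      have hz' : p • z = -m (QuotientAddGroup.mk x) + x := hz
      rw [hz']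
      abel
    rw [← Submodule.toAddSubgroup_injective.eq_iff, Submodule.span_int_eq_addSubgroupClosure, h1]
    rfl
  have hcard : Fintype.card ι ≤ s₁ := by
    rw [← Nat.card_eq_fintype_card, s36t_card_quot_range pm]
    have h1 := hs ((pm.ker).map M₁.subtype.toAddMonoidHom) (by
      rintro _ ⟨x, hx, rfl⟩
      have hx0 : p • x = 0 := hx
      have := congrArg (fun y : ↥M₁ => (y : X)) hx0
      simpa using this)
    rwa [AddSubgroup.card_map_of_injective (Subtype.coe_injective)] at h1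
  obtain ⟨f, hf1, hf0⟩ := s36t_det_trick m hm u B hBM
  -- `W` is a `q`-group
  have hWp : IsPGroup q W := by
    rintro ⟨w, k, rfl⟩
    obtain ⟨mm, hmm⟩ := hker (k : ↥I) ((hmemK _).mp k.2)
    refine ⟨mm, ?_⟩
    apply Subtype.ext
    apply Units.ext
    show ((actK k ^ (q ^ mm) : (Module.End ℤ X)ˣ) : Module.End ℤ X) = 1
    rw [← map_pow, hactK_coe]
    exact hmm
  obtain ⟨a, ha⟩ := IsPGroup.exists_card_eq hWp
  -- lifts
  choose κ hκ using fun w : W => w.2
  set c : G →₀ ℤ := ∑ j ∈ Finset.range (f.natDegree + 1), ∑ w : W,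
    Finsupp.single ((((t₀ : ↥I) : G)) ^ j * ((((κ w : ↥K) : ↥I)) : G)) (f.coeff j) with hc
  refine ⟨c, a, Fintype.card ι, hcard, ?_, ?_⟩
  · have h1 : (c.sum fun g z => z • act g) = aeval (act ((t₀ : ↥I) : G)) f * e := by
      rw [hc, s36t_sum_double _ _ _ _ (fun g z => z • act g) (fun g => zero_smul _ _)
        (fun g z z' => add_smul _ _ _), aeval_eq_sum_range, Finset.sum_mul]
      refine Finset.sum_congr rfl fun j _ => ?_
      rw [he, Finset.mul_sum]
      refine Finset.sum_congr rfl fun w _ => ?_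
      rw [map_mul, map_pow, smul_mul_assoc, ← hactK_coe (κ w), hκ w]
    rw [h1]
    ext x
    rw [Module.End.mul_apply, Module.End.mul_apply, LinearMap.zero_apply]
    have h2 := s36t_aeval_restrict (act ((t₀ : ↥I) : G)) M₁ ht₀ f ⟨e (θ x), he_mem x⟩
    rw [← hu, hf0] at h2
    exact h2.symm
  · intro R _ τ r hτ
    rw [hc, s36t_sum_double _ _ _ _ (fun g z => z • τ g) (fun g => zero_smul _ _)
      (fun g z z' => add_smul _ _ _)]
    have h1 : ∀ j, ∀ w : W, f.coeff j • τ ((((t₀ : ↥I) : G)) ^ j * ((((κ w : ↥K) : ↥I)) : G)) =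
        f.coeff j • r := by
      intro j w
      rw [hτ _ (I.mul_mem (I.pow_mem t₀.2 j) (κ w : ↥I).2)]
    simp only [h1]
    rw [Finset.sum_comm, Finset.sum_const, Finset.card_univ, ← Finset.sum_smul]
    have h2 : (∑ j ∈ Finset.range (f.natDegree + 1), f.coeff j) = f.eval 1 := by
      rw [eval_eq_sum_range]
      refine Finset.sum_congr rfl fun j _ => ?_
      rw [one_pow, mul_one]
    rw [h2, hf1, ← Nat.card_eq_fintype_card (α := W), ha, ← natCast_zsmul, smul_smul]
    push_cast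
    rfl

end Main

end Fermat.Agent.S36
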