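import Fermat.Agent.S36.T.Algebra
import Fermat.Agent.S32.Setup
import Fermat.Agent.S30.PseudoChar

/-!
# S36, route T, piece TK: the trace kernel with a Hecke factor

`t : G_ℚ → 𝒪'` the trace function of S30 (`S30.exists_traceFun`), `𝒪'` local with `p ∈ 𝔪`.
Suppose `t (g₁ g₂ g₃) - t (g₂ g₁ g₃)` is a unit for some `g₁ g₂ g₃` (absolute irreducibility of
the residual representation).  If the level `n` is good for the precision `k ≥ 1`, `Θ` is a Hecke
polynomial in the variables outside `S` and `c ∈ ℤ[G_ℚ]` kills `Θ · J[pⁿ]`, then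

  `χ(Θ) * Σ c_g t(g) ∈ 𝔪ᵏ`.

(Proof of `S32.s32_trace_mem` with the central factor `θ = Θ`.)
-/

set_option autoImplicit false

namespace Fermat.Agent.S36

open ModularCurve Fermat.Agent.ES Fermat.Agent.S31 Fermat.Agent.S32 Fermat.Agent.S30

variable {p : ℕ} [Fact p.Prime] {N : ℕ} [NeZero N] {J : Type} [AddCommGroup J]
  [Module HeckeAlg J] [DistribMulAction GQ J] {S : Finset ℕ} {𝒪' : Type*} [CommRing 𝒪']
  [IsLocalRing 𝒪'] {χ : CuspForm.heckeAlgebra N 2 (↑S : Set ℕ) →+* 𝒪'}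

/-- **(TK)** the trace kernel with a Hecke factor. -/
theorem s36t_trace_kernel
    (hpI : (p : 𝒪') ∈ IsLocalRing.maximalIdeal 𝒪')
    (hcheb : Cheb.WeakChebotarev) (hJ : ESDataInf N p J)
    (hgood : ∀ r : ℕ, r.Prime → r ∉ S → ¬ r ∣ N * p)
    (t : GQ → 𝒪')
    (ht : ∀ (g : GQ) (k n : ℕ) (h : HeckeAlg), Good p J S χ k n →
      h ∈ MvPolynomial.supported ℤ (outsideVars (↑S : Set ℕ)) → Approx p J n g h →
        t g - chiHom S χ h ∈ IsLocalRing.maximalIdeal 𝒪' ^ k)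
    (g₁ g₂ g₃ : GQ)
    (hunit : t (g₁ * g₂ * g₃) - t (g₂ * g₁ * g₃) ∉ IsLocalRing.maximalIdeal 𝒪')
    {k n : ℕ} (hk : k ≠ 0) (hG : Good p J S χ k n)
    (Θ : HeckeAlg) (hΘ : Θ ∈ MvPolynomial.supported ℤ (outsideVars (↑S : Set ℕ)))
    (c : GQ →₀ ℤ)
    (hc : ∀ x : J, p ^ n • x = 0 → (c.sum fun g z => z • g • (Θ • x)) = 0) :
    chiHom S χ Θ * (c.sum fun g z => z • t g) ∈ IsLocalRing.maximalIdeal 𝒪' ^ k := by
  classical
  have hp : p.Prime := Fact.out
  set Sg : Set Nat.Primes := outsideVars (↑S : Set ℕ) with hSgdef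
  -- the fields
  obtain ⟨E, hEfin, hE⟩ := exists_common_field hJ n
  have hM0 : p ^ n ≠ 0 := pow_ne_zero n hp.ne_zero
  have : NeZero ((p ^ n : ℕ) : AlgebraicClosure ℚ) := ⟨Nat.cast_ne_zero.mpr hM0⟩
  obtain ⟨ζ, hζ⟩ := HasEnoughRootsOfUnity.exists_primitiveRoot (AlgebraicClosure ℚ) (p ^ n)
  have hζfin : FiniteDimensional ℚ (IntermediateField.adjoin ℚ {ζ}) :=
    IntermediateField.adjoin.finiteDimensional ((hζ.isIntegral (Nat.pos_of_ne_zero hM0)).tower_top)
  obtain ⟨F, hFfin, hFgal, hEF, -, hζF⟩ :=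
    exists_galois_hull E E (IntermediateField.adjoin ℚ {ζ})
  have hζF' : ζ ∈ F := hζF (IntermediateField.mem_adjoin_simple_self ℚ ζ)
  have hF : ∀ σ : GQ, (∀ a ∈ F, σ a = a) → ∀ x : J, p ^ n • x = 0 → σ • x = x :=
    fun σ h => hE σ fun a ha => h a (hEF ha)
  -- Frobenius data for every `g`
  choose ℓ A τ m hℓ hℓS hA hτ hg using fun g : GQ => hcheb F S g
  have hℓS' : ∀ g, ℓ g ∉ (↑S : Set ℕ) := fun g => hℓS g
  have hℓNp : ∀ g, ¬ ℓ g ∣ N * p := fun g => hgood (ℓ g) (hℓ g) (hℓS g)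
  have hQ := quadRel hJ hp hζ F hζF' hF ℓ A τ m hℓ hℓNp hA hτ hg
  -- the Hecke polynomials `P g`
  set P : GQ → HeckeAlg := fun g => lucasS (heckeGen ⟨ℓ g, hℓ g⟩) (ℓ g : HeckeAlg) (m g) with hP
  have hPsupp : ∀ g, P g ∈ MvPolynomial.supported ℤ Sg := by
    intro g
    refine lucasS_mem_subalgebra _ ?_ (natCast_mem _ (ℓ g)) (m g)
    exact (MvPolynomial.X_mem_supported (R := ℤ)).mpr (hℓS' g)
  -- `P g` represents `g`
  have hApprox : ∀ g, Approx p J n g (P g) := by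
    intro g x hx
    have h1 := lucas_galois hJ n F hF (hℓ g) (hℓNp g) (hA g) (hτ g) (m g) g (hg g) hx
    have hζ1 : ζ ^ (p ^ n) = 1 := hζ.pow_eq_one
    have h2 : (τ g ^ m g) ζ = ζ ^ (ℓ g ^ m g) :=
      frob_pow_rootOfUnity (A g)
        (natCast_pow_not_mem_nonunits (A g) hp (hℓ g) (ne_of_not_dvd_mul (hℓNp g)) (hA g) n)
        hM0 (hτ g) hζ1 (m g)
    have h3 : g ζ = ζ ^ (ℓ g ^ m g) := by rw [← hg g ζ hζF', h2]
    have he : cycE p n g ≡ ℓ g ^ m g [MOD p ^ n] := cycE_of_apply p n g _ hζ h3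
    rw [nsmul_eq_of_modEq he (torsion_smul n g⁻¹ hx)]
    exact h1
  -- the trace congruences
  have htr : ∀ g, t g - chiHom S χ (P g) ∈ IsLocalRing.maximalIdeal 𝒪' ^ k :=
    fun g => ht g k n (P g) hG (hPsupp g) (hApprox g)
  -- a unit
  set u : HeckeAlg := P (g₁ * g₂ * g₃) - P (g₂ * g₁ * g₃) with hu
  have hle : IsLocalRing.maximalIdeal 𝒪' ^ k ≤ IsLocalRing.maximalIdeal 𝒪' :=
    Ideal.pow_le_self hk
  have huunit : IsUnit (chiHom S χ u) := by
    rw [← IsLocalRing.notMem_maximalIdeal]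
    intro hmem
    apply hunit
    have e : t (g₁ * g₂ * g₃) - t (g₂ * g₁ * g₃) =
        (t (g₁ * g₂ * g₃) - chiHom S χ (P (g₁ * g₂ * g₃))) -
          (t (g₂ * g₁ * g₃) - chiHom S χ (P (g₂ * g₁ * g₃))) + chiHom S χ u := by
      rw [hu, map_sub]; ring
    rw [e]
    exact add_mem (sub_mem (hle (htr _)) (hle (htr _))) hmem
  -- the main argument
  set D : HeckeAlg := c.sum fun g z => z • P g with hD
  have hDsupp : D ∈ MvPolynomial.supported ℤ Sg := by
    rw [hD]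
    exact Subalgebra.sum_mem _ fun g _ => Subalgebra.zsmul_mem _ (hPsupp g) _
  have husupp : u ∈ MvPolynomial.supported ℤ Sg := sub_mem (hPsupp _) (hPsupp _)
  -- `c` kills `Θ J[pⁿ]`, in the endomorphism ring
  have hb : (c.sum fun g z => z • galEnd J p n g) * heckeEnd J p n Θ = 0 := by
    ext x
    rw [Finsupp.sum, Module.End.mul_apply, LinearMap.sum_apply]
    have := hc x x.2
    rw [Finsupp.sum] at this
    simp only [LinearMap.smul_apply, galEnd_apply, heckeEnd_apply, LinearMap.zero_apply]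
    rw [AddSubmonoidClass.coe_finsetSum]
    simp only [Submodule.coe_smul_of_tower, coe_smul_tors, coe_hecke_smul_tors,
      ZeroMemClass.coe_zero]
    exact this
  have hθ : ∀ g, heckeEnd J p n Θ * galEnd J p n g = galEnd J p n g * heckeEnd J p n Θ := by
    intro g
    ext x
    simp only [Module.End.mul_apply, heckeEnd_apply, galEnd_apply, coe_smul_tors,
      coe_hecke_smul_tors]
    exact (hJ.smul_comm g _ _).symm
  have hkill0 := s36t_D_mul_t_sub hQ (heckeEnd J p n Θ) hθ c hb g₁ g₂ g₃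
  -- translate: `heckeEnd (D * Θ * u) = 0`
  have hdsum : dSum (fun g => heckeEnd J p n (P g)) c = heckeEnd J p n D := by
    unfold dSum
    rw [hD, Finsupp.sum, Finsupp.sum, map_sum]
    refine Finset.sum_congr rfl fun g _ => ?_
    rw [map_zsmul]
  have hkill1 : heckeEnd J p n (D * Θ * u) = 0 := by
    rw [map_mul, map_mul, hu, map_sub, ← hdsum]
    exact hkill0
  have hDkill : ∀ x : J, p ^ n • x = 0 → (D * Θ * u) • x = 0 := by
    intro x hx
    have := congrArg (fun f : Module.End ℤ ↥(tors J p n) => ((f ⟨x, hx⟩ : ↥(tors J p n)) : J)) hkill1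
    rw [mul_smul, mul_smul]
    simpa using this
  have hmem := span_pow_le (IsLocalRing.maximalIdeal 𝒪') hpI k
    (hG (D * Θ * u) (mul_mem (mul_mem hDsupp hΘ) husupp) hDkill)
  have hπD : chiHom S χ D * chiHom S χ Θ ∈ IsLocalRing.maximalIdeal 𝒪' ^ k := by
    rw [map_mul, map_mul] at hmem
    exact (Ideal.unit_mul_mem_iff_mem _ huunit).mp (by rwa [mul_comm] at hmem)
  -- conclusion
  have hsum : (c.sum fun g z => z • t g) =
      (c.sum fun g z => z • (t g - chiHom S χ (P g))) + chiHom S χ D := by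
    rw [hD, Finsupp.sum, Finsupp.sum, Finsupp.sum, map_sum, ← Finset.sum_add_distrib]
    refine Finset.sum_congr rfl fun g _ => ?_
    rw [map_zsmul, smul_sub, sub_add_cancel]
  rw [hsum, mul_add]
  refine add_mem ?_ (by rwa [mul_comm] at hπD)
  apply Ideal.mul_mem_left
  rw [Finsupp.sum]
  exact Ideal.sum_mem _ fun g _ => by
    rw [zsmul_eq_mul]
    exact Ideal.mul_mem_left _ _ (htr g)

end Fermat.Agent.S36
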