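import Fermat.Agent.S36.T.Plan
import Fermat.Agent.S36.T.TraceKernel
import Fermat.Agent.S36.T.Tame
import Fermat.Agent.S36.T.Average

/-!
# S36, route T: proof of `StmtH8`

See `Fermat/Agent/S36/T/Plan.lean` for the statement and NOTES/S36-routeT.md for the proof.
-/

set_option autoImplicit false

namespace Fermat.Agent.S36

open ModularCurve Fermat.Agent.ES Fermat.Agent.S31 Fermat.Agent.S32 Fermat.Agent.S30

/-- a `p`-power torsion element killed by `c₀ ≠ 0` is killed by `p ^ c₀` -/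
theorem s36t_pow_smul_of_smul {J : Type*} [AddCommGroup J] {p : ℕ} (hp : p.Prime) {c₀ : ℕ}
    (hc₀ : c₀ ≠ 0) {x : J} {m : ℕ} (hx : p ^ m • x = 0) (hcx : c₀ • x = 0) :
    p ^ c₀ • x = 0 := by
  have hg : (Nat.gcd (p ^ m) c₀ : ℤ) • x = 0 := by
    rw [Nat.gcd_eq_gcd_ab, add_smul, mul_comm, mul_smul, mul_comm, mul_smul]
    have h1 : ((p ^ m : ℕ) : ℤ) • x = 0 := by rw [natCast_zsmul, hx]
    have h2 : ((c₀ : ℕ) : ℤ) • x = 0 := by rw [natCast_zsmul, hcx]
    rw [h1, h2, smul_zero, smul_zero, add_zero]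
  rw [natCast_zsmul] at hg
  obtain ⟨j, -, hj⟩ := (Nat.dvd_prime_pow hp).mp (Nat.gcd_dvd_left (p ^ m) c₀)
  rw [hj] at hg
  have h3 : p ^ j ∣ c₀ := hj ▸ Nat.gcd_dvd_right (p ^ m) c₀
  have h4 : j < c₀ := lt_of_lt_of_le (Nat.lt_pow_self hp.one_lt)
    (Nat.le_of_dvd (Nat.pos_of_ne_zero hc₀) h3)
  obtain ⟨d, rfl⟩ := Nat.exists_eq_add_of_lt h4
  rw [show j + d + 1 = (d + 1) + j by ring, pow_add, mul_smul, hg, smul_zero]

/-- **(h8)**, abstract form (route T). -/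
theorem stmtH8 : StmtH8 := by
  intro p N _ _ J _ _ _ S 𝒪' _ _ _ _ χ hpI hcheb hJ hfaith hgoodN hgood t ht hU q hq hqp A hA
    New hNewG hQ Θ hΘ hΘnew hχΘ
  obtain ⟨g₁, g₂, g₃, hunit⟩ := hU
  obtain ⟨c₀, hc₀, hQ⟩ := hQ
  classical
  by_contra hcon
  have hcon : ∀ σ ∈ A.inertiaSubgroupIn ℚ, t σ = 2 := by
    intro σ hσ
    by_contra h
    exact hcon ⟨σ, hσ, h⟩
  have hp : p.Prime := Fact.out
  haveI : Fact q.Prime := ⟨hq⟩
  -- finiteness
  have hfin : ∀ n : ℕ, Finite ↥(tors J p n) := fun n => (hJ.finite n).to_subtype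
  -- constants
  set B : ℕ := Nat.card ↥(tors J p c₀) with hBdef
  set s₁ : ℕ := Nat.card ↥(tors J p 1) with hs₁def
  have hB0 : B ≠ 0 := by
    haveI := hfin c₀
    exact Nat.card_pos.ne'
  -- the element `z`
  set z : 𝒪' := 2 * (B : 𝒪') ^ s₁ * chiHom S χ Θ with hz
  have hz0 : z ≠ 0 := by
    rw [hz]
    exact mul_ne_zero (mul_ne_zero two_ne_zero (pow_ne_zero _ (Nat.cast_ne_zero.mpr hB0))) hχΘ
  obtain ⟨k, hzk⟩ : ∃ k : ℕ, z ∉ IsLocalRing.maximalIdeal 𝒪' ^ k := by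
    by_contra h
    have h : ∀ k : ℕ, z ∈ IsLocalRing.maximalIdeal 𝒪' ^ k := by
      intro k
      by_contra hk
      exact h ⟨k, hk⟩
    apply hz0
    have h1 : z ∈ ⨅ i : ℕ, IsLocalRing.maximalIdeal 𝒪' ^ i := by
      rw [Ideal.mem_iInf]; exact h
    rw [Ideal.iInf_pow_eq_bot_of_isLocalRing _ (Ideal.IsMaximal.ne_top inferInstance)] at h1
    exact h1
  have hk0 : k ≠ 0 := by
    rintro rfl
    apply hzk
    rw [pow_zero, Ideal.one_eq_top]
    exact Submodule.mem_top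
  obtain ⟨n, -, hG⟩ := exists_good (J := J) S χ hfaith hgoodN hgood k
  haveI := hfin n
  -- the tame character
  obtain ⟨E, hEfin, hE⟩ := exists_common_field hJ n
  obtain ⟨C, _, ψ, t₀, hgen, hker⟩ := s36t_tame_global hq A hA E
  have hker' : ∀ y : ↥(A.inertiaSubgroupIn ℚ), ψ y = 1 →
      ∃ m : ℕ, galEnd J p n ((y : GQ) ^ (q ^ m)) = 1 := by
    intro y hy
    obtain ⟨m, hm⟩ := hker y hy
    refine ⟨m, ?_⟩
    ext x
    simp only [galEnd_apply, coe_smul_tors, Module.End.one_apply]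
    exact hE _ hm x x.2
  have hθ : ∀ g, heckeEnd J p n Θ * galEnd J p n g = galEnd J p n g * heckeEnd J p n Θ := by
    intro g
    ext x
    simp only [Module.End.mul_apply, heckeEnd_apply, galEnd_apply, coe_smul_tors,
      coe_hecke_smul_tors]
    exact (hJ.smul_comm g _ _).symm
  have hB' : ∀ H : AddSubgroup ↥(tors J p n),
      (∀ x ∈ H, x ∈ LinearMap.range (heckeEnd J p n Θ) ∧
        ∀ g : ↥(A.inertiaSubgroupIn ℚ), galEnd J p n (g : GQ) x = x) → Nat.card H ∣ B := by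
    intro H hH
    have hmem : ∀ x : H, ((x : ↥(tors J p n)) : J) ∈ tors J p c₀ := by
      intro x
      obtain ⟨⟨y, hy⟩, hinv⟩ := hH x x.2
      have h1 : ((x : ↥(tors J p n)) : J) ∈ New := by
        rw [← hy]
        exact hΘnew (y : J) ⟨n, y.2⟩
      have h2 : ∀ σ ∈ A.inertiaSubgroupIn ℚ, σ • ((x : ↥(tors J p n)) : J) =
          ((x : ↥(tors J p n)) : J) := by
        intro σ hσ
        have := congrArg (fun w : ↥(tors J p n) => (w : J)) (hinv ⟨σ, hσ⟩)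
        simpa using this
      have h3 := hQ _ ⟨n, (x : ↥(tors J p n)).2⟩ h1 h2
      exact s36t_pow_smul_of_smul hp hc₀ (x : ↥(tors J p n)).2 h3
    let φ : ↥H →+ ↥(tors J p c₀) :=
      { toFun := fun x => ⟨((x : ↥(tors J p n)) : J), hmem x⟩
        map_zero' := rfl
        map_add' := fun _ _ => rfl }
    have hφ : Function.Injective φ := by
      intro x y hxy
      have := congrArg (fun w : ↥(tors J p c₀) => (w : J)) hxy
      exact Subtype.ext (Subtype.ext this)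
    exact AddSubgroup.card_dvd_of_injective φ hφ
  have hs' : ∀ H : AddSubgroup ↥(tors J p n), (∀ x ∈ H, p • x = 0) → Nat.card H ≤ s₁ := by
    intro H hH
    haveI := hfin 1
    have hmem : ∀ x : H, ((x : ↥(tors J p n)) : J) ∈ tors J p 1 := by
      intro x
      have := congrArg (fun w : ↥(tors J p n) => (w : J)) (hH x x.2)
      rw [mem_tors, pow_one]
      simpa using this
    exact Nat.card_le_card_of_injective
      (fun x : H => (⟨((x : ↥(tors J p n)) : J), hmem x⟩ : ↥(tors J p 1)))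
      (fun x y hxy => Subtype.ext (Subtype.ext
        (congrArg (fun w : ↥(tors J p 1) => (w : J)) hxy)))
  obtain ⟨c, a, s, hs, hkill, haug⟩ := s36t_exists_killer (galEnd J p n)
    (A.inertiaSubgroupIn ℚ) ψ t₀ hgen q hker' (heckeEnd J p n Θ) hθ p n
    (fun x => pow_smul_tors x) B s₁ hB' hs'
  -- the trace kernel
  have hc : ∀ x : J, p ^ n • x = 0 → (c.sum fun g z => z • g • (Θ • x)) = 0 := by
    intro x hx
    have h1 := congrArg (fun f : Module.End ℤ ↥(tors J p n) =>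
      ((f ⟨x, hx⟩ : ↥(tors J p n)) : J)) hkill
    simp only [Module.End.mul_apply, heckeEnd_apply, LinearMap.zero_apply,
      ZeroMemClass.coe_zero] at h1
    rw [Finsupp.sum, LinearMap.sum_apply, AddSubmonoidClass.coe_finsetSum] at h1
    rw [Finsupp.sum]
    simpa using h1
  have hTK := s36t_trace_kernel hpI hcheb hJ hgood t ht g₁ g₂ g₃ hunit hk0 hG Θ hΘ c hc
  rw [haug 𝒪' t 2 (fun g hg => hcon g hg)] at hTK
  -- `q` is a unit
  have hqunit : IsUnit ((q : 𝒪') ^ a) := by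
    apply IsUnit.pow
    rw [← IsLocalRing.notMem_maximalIdeal]
    intro hqm
    have hcop : IsCoprime (p : ℤ) (q : ℤ) :=
      Nat.isCoprime_iff_coprime.mpr ((Nat.coprime_primes hp hq).mpr (Ne.symm hqp))
    obtain ⟨u, w, huw⟩ := hcop
    have h1 : ((u * p + w * q : ℤ) : 𝒪') = 1 := by rw [huw]; simp
    push_cast at h1
    have h2 : (1 : 𝒪') ∈ IsLocalRing.maximalIdeal 𝒪' := by
      rw [← h1]
      exact add_mem (Ideal.mul_mem_left _ _ hpI) (Ideal.mul_mem_left _ _ hqm)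
    exact (Ideal.ne_top_iff_one _).mp (Ideal.IsMaximal.ne_top inferInstance) h2
  apply hzk
  have e1 : chiHom S χ Θ * (((q ^ a * B ^ s : ℕ) : ℤ) • (2 : 𝒪')) =
      (q : 𝒪') ^ a * (2 * (B : 𝒪') ^ s * chiHom S χ Θ) := by
    rw [zsmul_eq_mul]
    push_cast
    ring
  rw [e1] at hTK
  have h5 : 2 * (B : 𝒪') ^ s * chiHom S χ Θ ∈ IsLocalRing.maximalIdeal 𝒪' ^ k :=
    (Ideal.unit_mul_mem_iff_mem _ hqunit).mp hTK
  obtain ⟨d, hd⟩ := Nat.exists_eq_add_of_le hs
  have e2 : z = (B : 𝒪') ^ d * (2 * (B : 𝒪') ^ s * chiHom S χ Θ) := by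
    rw [hz, hd, pow_add]; ring
  rw [e2]
  exact Ideal.mul_mem_left _ _ h5

end Fermat.Agent.S36
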