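import Fermat.Agent.S32.Algebra

/-!
# S36, route T, piece TK-A: the annihilator lemma with a central factor

Setting of `Fermat/Agent/S32/Algebra.lean` (`QuadRel a χ t`), plus `θ : E` commuting with all
`a g`.  If `(Σ c_g a g) * θ = 0`, then `D := Σ c_g t g` satisfies

  `D * (t (g₁ g₂ g₃) - t (g₂ g₁ g₃)) * θ = 0`.

(The proofs are those of `S32/Algebra.lean` with `D` replaced by `D * θ`.)
-/

set_option autoImplicit false

namespace Fermat.Agent.S36

open Fermat.Agent.S32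

variable {E : Type*} [Ring E] {G : Type*} [Group G]
variable {a : G →* E} {χ : G → E} {t : G → E}

/-- if `(Σ c_g a g) * θ = 0` then `D * θ = (Σ c_g χ g a g⁻¹) * θ` -/
theorem s36t_D_theta_eq (h : QuadRel a χ t) (θ : E) (c : G →₀ ℤ)
    (hb : (c.sum fun g z => z • a g) * θ = 0) :
    dSum t c * θ = (c.sum fun g z => z • (χ g * a g⁻¹)) * θ := by
  have h1 : dSum t c = (c.sum fun g z => z • a g) + c.sum fun g z => z • (χ g * a g⁻¹) := by
    unfold dSum Finsupp.sum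
    rw [← Finset.sum_add_distrib]
    refine Finset.sum_congr rfl fun x _ => ?_
    dsimp only
    rw [h.t_eq, smul_add]
  rw [h1, add_mul, hb, zero_add]

/-- the shifted sum: `(Σ c_x t (g⁻¹ x)) * θ = χ g⁻¹ * (D * θ) * a g` -/
theorem s36t_shift (h : QuadRel a χ t) (θ : E) (hθ : ∀ g, θ * a g = a g * θ) (c : G →₀ ℤ)
    (hb : (c.sum fun g z => z • a g) * θ = 0) (g : G) :
    (c.sum fun x z => z • t (g⁻¹ * x)) * θ = χ g⁻¹ * (dSum t c * θ) * a g := by
  have h1 : (c.sum fun x z => z • t (g⁻¹ * x)) =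
      a g⁻¹ * (c.sum fun x z => z • a x) +
        χ g⁻¹ * (c.sum fun x z => z • (χ x * a x⁻¹)) * a g := by
    unfold Finsupp.sum
    rw [Finset.mul_sum, Finset.mul_sum, Finset.sum_mul, ← Finset.sum_add_distrib]
    refine Finset.sum_congr rfl fun x _ => ?_
    dsimp only
    rw [h.t_eq, smul_add, mul_smul_comm, mul_smul_comm, smul_mul_assoc, map_mul, h.chi_mul,
      mul_inv_rev, inv_inv, map_mul]
    congr 1
    rw [mul_assoc, mul_assoc, mul_assoc]
  rw [h1, add_mul, mul_assoc (a g⁻¹), hb, mul_zero, zero_add, s36t_D_theta_eq h θ c hb,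
    mul_assoc (χ g⁻¹ * _), ← hθ g, mul_assoc, mul_assoc, mul_assoc]

/-- `D * θ` commutes with every `a g` -/
theorem s36t_Dtheta_comm (h : QuadRel a χ t) (θ : E) (hθ : ∀ g, θ * a g = a g * θ)
    (c : G →₀ ℤ) (g : G) : dSum t c * θ * a g = a g * (dSum t c * θ) := by
  rw [mul_assoc, hθ g, ← mul_assoc, dSum_comm h c g, mul_assoc]

/-- `D * θ * a g` commutes with every `a h` -/
theorem s36t_D_mul_central (h : QuadRel a χ t) (θ : E) (hθ : ∀ g, θ * a g = a g * θ)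
    (c : G →₀ ℤ) (hb : (c.sum fun g z => z • a g) * θ = 0) (g g' : G) :
    dSum t c * θ * a g * a g' = a g' * (dSum t c * θ * a g) := by
  have h0 : (c.sum fun x z => z • t (g⁻¹ * x)) * a g' =
      a g' * (c.sum fun x z => z • t (g⁻¹ * x)) := by
    unfold Finsupp.sum
    rw [Finset.sum_mul, Finset.mul_sum]
    refine Finset.sum_congr rfl fun x _ => ?_
    rw [smul_mul_assoc, mul_smul_comm, h.t_comm]
  have h1 : (c.sum fun x z => z • t (g⁻¹ * x)) * θ * a g' =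
      a g' * ((c.sum fun x z => z • t (g⁻¹ * x)) * θ) := by
    rw [mul_assoc, hθ g', ← mul_assoc, h0, mul_assoc]
  rw [s36t_shift h θ hθ c hb g] at h1
  have h2 : χ g * (χ g⁻¹ * (dSum t c * θ) * a g * a g') =
      χ g * (a g' * (χ g⁻¹ * (dSum t c * θ) * a g)) := by
    rw [h1]
  have e1 : χ g * (χ g⁻¹ * (dSum t c * θ) * a g * a g') = dSum t c * θ * a g * a g' := by
    rw [← mul_assoc, ← mul_assoc, ← mul_assoc, h.chi_mul_inv, one_mul]
  have e2 : χ g * (a g' * (χ g⁻¹ * (dSum t c * θ) * a g)) = a g' * (dSum t c * θ * a g) := by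
    rw [h.chi_comm g, mul_assoc (a g'), ← h.chi_comm g, ← mul_assoc (χ g), ← mul_assoc (χ g),
      h.chi_mul_inv, one_mul]
  rw [e1, e2] at h2
  exact h2

/-- `D * θ` kills the commutators -/
theorem s36t_D_mul_comm (h : QuadRel a χ t) (θ : E) (hθ : ∀ g, θ * a g = a g * θ)
    (c : G →₀ ℤ) (hb : (c.sum fun g z => z • a g) * θ = 0) (g g' : G) :
    dSum t c * θ * a g * a g' = dSum t c * θ * a g' * a g := by
  rw [s36t_D_mul_central h θ hθ c hb g g', ← mul_assoc, ← s36t_Dtheta_comm h θ hθ c g']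

/-- **the annihilator lemma with a central factor**:
`D * θ * (t (g h g') - t (h g g')) = 0`. -/
theorem s36t_D_mul_t_sub (h : QuadRel a χ t) (θ : E) (hθ : ∀ g, θ * a g = a g * θ)
    (c : G →₀ ℤ) (hb : (c.sum fun g z => z • a g) * θ = 0) (g₁ g₂ g₃ : G) :
    dSum t c * θ * (t (g₁ * g₂ * g₃) - t (g₂ * g₁ * g₃)) = 0 := by
  set D := dSum t c * θ with hD
  have hc := s36t_D_mul_comm h θ hθ c hb
  have hDc := s36t_Dtheta_comm h θ hθ c
  have hχ : χ (g₁ * g₂ * g₃) = χ (g₂ * g₁ * g₃) := by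
    rw [h.chi_mul, h.chi_mul, h.chi_mul, h.chi_mul]
    congr 1
    have := h.chi_comm g₁ (χ g₂)
    exact this
  rw [h.t_eq, h.t_eq, ← hχ]
  have e1 : D * (a (g₁ * g₂ * g₃) + χ (g₁ * g₂ * g₃) * a (g₁ * g₂ * g₃)⁻¹ -
      (a (g₂ * g₁ * g₃) + χ (g₁ * g₂ * g₃) * a (g₂ * g₁ * g₃)⁻¹)) =
      (D * a g₁ * a g₂ - D * a g₂ * a g₁) * a g₃ +
        χ (g₁ * g₂ * g₃) * (a g₃⁻¹ * (D * a g₂⁻¹ * a g₁⁻¹ - D * a g₁⁻¹ * a g₂⁻¹)) := by
    have hD3 : a g₃⁻¹ * D = D * a g₃⁻¹ := (hDc g₃⁻¹).symm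
    rw [map_mul, map_mul, map_mul, map_mul, mul_inv_rev, mul_inv_rev, mul_inv_rev, mul_inv_rev,
      map_mul, map_mul, map_mul, map_mul]
    have hx : ∀ e : E, D * (χ (g₁ * g₂ * g₃) * e) = χ (g₁ * g₂ * g₃) * (D * e) := by
      intro e
      rw [← mul_assoc, ← h.chi_comm, mul_assoc]
    rw [mul_sub, mul_add, mul_add, hx, hx, mul_sub, mul_sub, sub_mul]
    have e3 : ∀ x y : E, a g₃⁻¹ * (D * x * y) = D * (a g₃⁻¹ * (x * y)) := by
      intro x y
      rw [mul_assoc D, ← mul_assoc (a g₃⁻¹), hD3, mul_assoc]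
    rw [e3, e3]
    simp only [mul_assoc]
    abel
  rw [e1, hc g₁ g₂, sub_self, zero_mul, zero_add, hc g₂⁻¹ g₁⁻¹, sub_self, mul_zero, mul_zero]

end Fermat.Agent.S36
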