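import Mathlib

/-!
# S36, route T, piece DT: the determinant trick (Mathlib only)

* `s36t_smul_mem_range` : for an endomorphism `u` of a finite abelian group `M`, the cokernel of
  `u` has the order of the kernel; hence `B • x ∈ range u` as soon as `|ker u| ∣ B`.
* `s36t_closure_eq_top` : if `pⁿ M = 0` and every element of `M` is congruent modulo `p M` to an
  element of `T`, then `T` generates `M`.
* `s36t_det_trick` : if `M` is generated by `m i` (`i ∈ ι`, finite) and `B • M ⊆ (t - 1) M`, then
  there is `f ∈ ℤ[X]` with `f(1) = B ^ |ι|` and `f(t) = 0` on `M`.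
-/

set_option autoImplicit false

open Polynomial

namespace Fermat.Agent.S36

section Card

variable {M : Type*} [AddCommGroup M] [Finite M]

/-- the cokernel of an endomorphism of a finite abelian group has the order of its kernel -/
theorem s36t_card_quot_range (u : M →+ M) : Nat.card (M ⧸ u.range) = Nat.card u.ker := by
  have h1 := AddSubgroup.card_eq_card_quotient_mul_card_addSubgroup u.range
  have h2 := AddSubgroup.card_eq_card_quotient_mul_card_addSubgroup u.ker
  have h3 : Nat.card (M ⧸ u.ker) = Nat.card u.range :=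
    Nat.card_congr (QuotientAddGroup.quotientKerEquivRange u).toEquiv
  rw [h3] at h2
  have h4 : 0 < Nat.card u.range := Nat.card_pos
  have h5 : Nat.card (M ⧸ u.range) * Nat.card u.range = Nat.card u.ker * Nat.card u.range := by
    rw [← h1, h2, mul_comm]
  exact Nat.eq_of_mul_eq_mul_right h4 h5

/-- if `|ker u| ∣ B` then `B • M ⊆ range u` -/
theorem s36t_smul_mem_range (u : M →+ M) (B : ℕ) (hB : Nat.card u.ker ∣ B) (x : M) :
    B • x ∈ u.range := by
  obtain ⟨d, rfl⟩ := hB
  have h1 : Nat.card (M ⧸ u.range) • (QuotientAddGroup.mk x : M ⧸ u.range) = 0 :=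
    card_nsmul_eq_zero'
  rw [s36t_card_quot_range u] at h1
  have h2 : ((Nat.card u.ker * d) • x : M) = d • (Nat.card u.ker • x) := by
    rw [mul_comm, mul_smul]
  rw [h2]
  apply AddSubgroup.nsmul_mem
  rw [← QuotientAddGroup.eq_zero_iff]
  exact h1

end Card

section Gen

variable {M : Type*} [AddCommGroup M]

/-- if `pⁿ M = 0` and every element of `M` is congruent modulo `p M` to an element of `T`,
then `T` generates `M` -/
theorem s36t_closure_eq_top (p n : ℕ) (hM : ∀ x : M, p ^ n • x = 0) (T : Set M)
    (hT : ∀ x : M, ∃ s ∈ T, ∃ z : M, x = s + p • z) :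
    AddSubgroup.closure T = ⊤ := by
  have key : ∀ k : ℕ, ∀ x : M, ∃ y ∈ AddSubgroup.closure T, ∃ z : M, x = y + p ^ k • z := by
    intro k
    induction k with
    | zero =>
      intro x
      exact ⟨0, zero_mem _, x, by rw [pow_zero, one_smul, zero_add]⟩
    | succ k ih =>
      intro x
      obtain ⟨y, hy, z, rfl⟩ := ih x
      obtain ⟨s, hs, z', rfl⟩ := hT z
      refine ⟨y + p ^ k • s, add_mem hy (AddSubgroup.nsmul_mem _ (AddSubgroup.subset_closure hs) _),
        z', ?_⟩
      rw [smul_add, pow_succ, mul_smul, add_assoc]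
  rw [eq_top_iff]
  intro x _
  obtain ⟨y, hy, z, rfl⟩ := key n x
  rw [hM z, add_zero]
  exact hy

end Gen

section Det

variable {M : Type*} [AddCommGroup M]

/-- **the determinant trick.** -/
theorem s36t_det_trick {ι : Type*} [Fintype ι] [DecidableEq ι] (m : ι → M)
    (hm : Submodule.span ℤ (Set.range m) = ⊤) (t : Module.End ℤ M) (B : ℕ)
    (hB : ∀ x : M, ∃ y : M, B • x = t y - y) :
    ∃ f : ℤ[X], f.eval 1 = (B : ℤ) ^ Fintype.card ι ∧ ∀ x : M, aeval t f x = 0 := by
  classical
  -- the matrix `a`
  have hex : ∀ i : ι, ∃ c : ι → ℤ, B • m i = t (∑ j, c j • m j) - ∑ j, c j • m j := by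
    intro i
    obtain ⟨y, hy⟩ := hB (m i)
    have hy' : y ∈ Submodule.span ℤ (Set.range m) := by rw [hm]; exact Submodule.mem_top
    obtain ⟨c, hc⟩ := (Submodule.mem_span_range_iff_exists_fun ℤ).mp hy'
    exact ⟨c, by rw [hc]; exact hy⟩
  choose a ha using hex
  -- the matrix over `ℤ[X]`
  set Nmat : Matrix ι ι ℤ[X] := fun i j =>
    (if i = j then C (B : ℤ) else 0) - (X - 1) * C (a i j) with hN
  refine ⟨Nmat.det, ?_, ?_⟩
  · -- the value at `1`
    have h1 : (Nmat.det).eval 1 = ((evalRingHom (1 : ℤ)).mapMatrix Nmat).det := by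
      rw [← RingHom.map_det]; rfl
    rw [h1]
    have h2 : (evalRingHom (1 : ℤ)).mapMatrix Nmat = (B : ℤ) • (1 : Matrix ι ι ℤ) := by
      ext i j
      rw [RingHom.mapMatrix_apply, Matrix.map_apply, Matrix.smul_apply, Matrix.one_apply,
        smul_eq_mul]
      show evalRingHom (1 : ℤ) ((if i = j then C (B : ℤ) else 0) - (X - 1) * C (a i j)) = _
      rw [coe_evalRingHom, eval_sub, eval_mul, eval_sub, eval_X, eval_one, sub_self, zero_mul,
        sub_zero]
      split_ifs
      · rw [eval_C, mul_one]
      · rw [eval_zero, mul_zero]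
    rw [h2, Matrix.det_smul, Matrix.det_one, mul_one]
  · -- `det N` kills `M`
    have hrow : ∀ i : ι, ∑ j, aeval t (Nmat i j) (m j) = 0 := by
      intro i
      have e : ∀ j, aeval t (Nmat i j) (m j) =
          (if i = j then B • m j else 0) - (t (a i j • m j) - a i j • m j) := by
        intro j
        show aeval t ((if i = j then C (B : ℤ) else 0) - (X - 1) * C (a i j)) (m j) = _
        rw [map_sub, map_mul, map_sub, aeval_X, map_one, aeval_C, LinearMap.sub_apply,
          Module.End.mul_apply, LinearMap.sub_apply, Module.End.one_apply,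
          Module.algebraMap_end_apply]
        congr 1
        split_ifs with h
        · rw [aeval_C, Module.algebraMap_end_apply, natCast_zsmul]
        · rw [map_zero, LinearMap.zero_apply]
      simp only [e]
      rw [Finset.sum_sub_distrib, Finset.sum_ite_eq, if_pos (Finset.mem_univ i),
        Finset.sum_sub_distrib, ← map_sum, ha i, sub_self]
    have hkill : ∀ k : ι, aeval t Nmat.det (m k) = 0 := by
      intro k
      have hadj : ∀ j, ∑ i, Nmat.adjugate k i * Nmat i j = if k = j then Nmat.det else 0 := by
        intro j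
        have := congrFun (congrFun (Matrix.adjugate_mul Nmat) k) j
        rw [Matrix.mul_apply, Matrix.smul_apply, Matrix.one_apply, smul_eq_mul] at this
        rw [this]
        split_ifs <;> simp
      have e1 : aeval t Nmat.det (m k) =
          ∑ j, aeval t (∑ i, Nmat.adjugate k i * Nmat i j) (m j) := by
        simp only [hadj]
        rw [Finset.sum_eq_single k]
        · rw [if_pos rfl]
        · intro j _ hjk
          rw [if_neg (Ne.symm hjk), map_zero, LinearMap.zero_apply]
        · intro h
          exact absurd (Finset.mem_univ k) h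
      rw [e1]
      have e2 : ∀ j, aeval t (∑ i, Nmat.adjugate k i * Nmat i j) (m j) =
          ∑ i, aeval t (Nmat.adjugate k i) (aeval t (Nmat i j) (m j)) := by
        intro j
        rw [map_sum, LinearMap.sum_apply]
        refine Finset.sum_congr rfl fun i _ => ?_
        rw [map_mul, Module.End.mul_apply]
      simp only [e2]
      rw [Finset.sum_comm]
      refine Finset.sum_eq_zero fun i _ => ?_
      rw [← map_sum, hrow i, map_zero]
    intro x
    have hx : x ∈ Submodule.span ℤ (Set.range m) := by rw [hm]; exact Submodule.mem_top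
    refine Submodule.span_induction (p := fun x _ => aeval t Nmat.det x = 0) ?_ ?_ ?_ ?_ hx
    · rintro _ ⟨k, rfl⟩
      exact hkill k
    · exact map_zero _
    · intro x y _ _ hx hy
      rw [map_add, hx, hy, add_zero]
    · intro c x _ hx
      rw [map_smul, hx, smul_zero]

end Det

end Fermat.Agent.S36
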